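import Fermat.Agent.SSP.Mod.Main
import Fermat.Agent.S40.Geo.EisAbs

/-!
# SSP / Mod : the Eisenstein step on the function, at the level `M * p`

`S40.eis_wild`, `S40.eis_tame` (helper38) instantiated at `TT hpM A`; the operator `Tx` stays abstract
(`S40.HeckeOp (TT hpM A) Tx d` + commutation with the Galois action).
-/

set_option autoImplicit false
set_option linter.unusedSectionVars false

noncomputable section

open AlgebraicCurve ModularCurve IsLocalRing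

namespace Fermat.Agent.SSP

open Fermat.Agent.RED hiding Kb
open Fermat.Agent.S24 Fermat.Agent.SS Fermat.Agent.ND
open Fermat.Agent.RED.Cusp (Fb jb)

variable {M p : ℕ} [NeZero M] [hp : Fact p.Prime] (hpM : ¬ p ∣ M)
variable (A : ValuationSubring Kb) [CharP (ResidueField A) p] [IsAlgClosed (ResidueField A)]
variable {M₀ : ℕ} [NeZero M₀] (D : S36.Wt1 M₀) (hM : M₀ ∣ M)

theorem map_mem_ratH {N : ℕ} {Tx : FN N →* FN N}
    (hTgal : ∀ (σ : GQ) (u : FN N), gal N σ • Tx u = Tx (gal N σ • u)) (H' : Subgroup GQ)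
    {u : FN N} (hu : u ∈ ratH N H') : Tx u ∈ ratH N H' := fun σ hσ => by
  rw [hTgal, hu σ hσ]

include D hM in
theorem eis_wild_mod_aux (hA : A.LiesOverPrime p) (𝒩 : NodalData (TT hpM A))
    (hP : 𝒩.P = polarDiv Kb (jF (M * p)))
    (hcompat : ∀ σ ∈ A.inertiaSubgroupIn ℚ, IsCompat 𝒩 (gal (M * p) σ) 1)
    (H' : Subgroup GQ) (hH' : H' ≤ A.inertiaSubgroupIn ℚ) {τ : GQ}
    (hτ : τ ∈ A.inertiaSubgroupIn ℚ)
    (hcos : ∀ g ∈ A.inertiaSubgroupIn ℚ, ∃ i < p, ∃ h ∈ H', g = τ ^ i * h)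
    {z0 : Kb} (hz : IsZ0 A p H' τ z0) {Tx : FN (M * p) →* FN (M * p)} {d : ℕ}
    (hT : S40.HeckeOp (TT hpM A) Tx d)
    (hTgal : ∀ (σ : GQ) (u : FN (M * p)), gal (M * p) σ • Tx u = Tx (gal (M * p) σ • u))
    {f : FN (M * p)} (hf : ∀ σ ∈ H', gal (M * p) σ • f = f) (hf0 : f ≠ 0)
    (E : Divisor Kb (FN (M * p))) (hE : ∀ P : Place Kb (FN (M * p)), P.ord f = p * E P)
    (E₂ : Divisor Kb (FN (M * p)))
    (hE₂ : ∀ P : Place Kb (FN (M * p)), P.ord (Tx f * (f ^ d)⁻¹) = p * E₂ P) :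
    (TT hpM A).R₁.O.valuation (Tx f * (f ^ d)⁻¹) = 1 ∧
    (TT hpM A).R₂.O.valuation (Tx f * (f ^ d)⁻¹) = 1 ∧
    (∀ Q : Place (ResidueField A) (Fb (ResidueField A) M),
      (p : ℤ) ∣ Q.ord (rd₁ (TT hpM A) (Tx f * (f ^ d)⁻¹))) ∧
    ∀ Q : Place (ResidueField A) (Fb (ResidueField A) M),
      (p : ℤ) ∣ Q.ord (rd₂ (TT hpM A) (Tx f * (f ^ d)⁻¹)) := by
  have hne : Nonempty 𝒩.S :=
    ND.exists_node (RB.isSepParam_jF (M * p)) (Cusp.isSepParam_jb M (ResidueField A) p hpM)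
  obtain ⟨s₀⟩ := id hne
  have hf₂ : Tx f * (f ^ d)⁻¹ ∈ ratH (M * p) H' :=
    mul_mem (map_mem_ratH hTgal H' hf) (inv_mem (pow_mem (show f ∈ ratH (M * p) H' from hf) d))
  exact S40.eis_wild (geoM hpM A 𝒩 s₀) (wildM hpM A D hM hA 𝒩 hcompat s₀ H' hτ hcos hz)
    (Cusp.isSepParam_jb M (ResidueField A) p hpM) hp.out (isInert_mod hpM A 𝒩 hcompat s₀ hτ)
    (slopeFn_mod hpM A D hM hA 𝒩 hP hcompat s₀) (sF_mem_ratH D hM H') (gal_smul_sF D hM τ)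
    hT (hTgal τ) (fun u hu => map_mem_ratH hTgal H' hu) hf hf0 E hE
    (locEqs_mod hpM A D hM hA 𝒩 hP hcompat s₀ H' hH' hf E hE) E₂ hE₂
    (locEqs_mod hpM A D hM hA 𝒩 hP hcompat s₀ H' hH' hf₂ E₂ hE₂)

include D hM in
theorem eis_tame_mod_aux (hA : A.LiesOverPrime p) (𝒩 : NodalData (TT hpM A))
    (hP : 𝒩.P = polarDiv Kb (jF (M * p)))
    (hcompat : ∀ σ ∈ A.inertiaSubgroupIn ℚ, IsCompat 𝒩 (gal (M * p) σ) 1)
    {Tx : FN (M * p) →* FN (M * p)} {d : ℕ} (hT : S40.HeckeOp (TT hpM A) Tx d)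
    (hTgal : ∀ (σ : GQ) (u : FN (M * p)), gal (M * p) σ • Tx u = Tx (gal (M * p) σ • u))
    {f : FN (M * p)} (hf : ∀ σ ∈ A.inertiaSubgroupIn ℚ, gal (M * p) σ • f = f) (hf0 : f ≠ 0)
    (E₂ : Divisor Kb (FN (M * p)))
    (hE₂ : ∀ P : Place Kb (FN (M * p)), P.ord (Tx f * (f ^ d)⁻¹) = p * E₂ P) :
    (TT hpM A).R₁.O.valuation (Tx f * (f ^ d)⁻¹) = 1 ∧
    (TT hpM A).R₂.O.valuation (Tx f * (f ^ d)⁻¹) = 1 ∧
    (∀ Q : Place (ResidueField A) (Fb (ResidueField A) M),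
      (p : ℤ) ∣ Q.ord (rd₁ (TT hpM A) (Tx f * (f ^ d)⁻¹))) ∧
    ∀ Q : Place (ResidueField A) (Fb (ResidueField A) M),
      (p : ℤ) ∣ Q.ord (rd₂ (TT hpM A) (Tx f * (f ^ d)⁻¹)) := by
  obtain ⟨s₀⟩ :=
    ND.exists_node (𝒩 := 𝒩) (RB.isSepParam_jF (M * p))
      (Cusp.isSepParam_jb M (ResidueField A) p hpM)
  have hsc := scale0_mod hpM A D hM hA
  simp only [← natCast_eq_algebraMap] at hsc
  have hf₂ : Tx f * (f ^ d)⁻¹ ∈ ratH (M * p) (A.inertiaSubgroupIn ℚ) :=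
    mul_mem (map_mem_ratH hTgal _ hf)
      (inv_mem (pow_mem (show f ∈ ratH (M * p) (A.inertiaSubgroupIn ℚ) from hf) d))
  exact S40.eis_tame (geoM hpM A 𝒩 s₀) hp.out (val₂_p_lt hpM A hA) hsc.1 hsc.2
    (slopeFn_mod hpM A D hM hA 𝒩 hP hcompat s₀) hT hf hf0 E₂ hE₂
    (locEqs_mod hpM A D hM hA 𝒩 hP hcompat s₀ _ le_rfl hf₂ E₂ hE₂)

/-- **The Eisenstein step, wild case, at the level `M * p`.** -/
theorem eis_wild_mod (h49 : 4 ∣ M ∨ 9 ∣ M) (hA : A.LiesOverPrime p)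
    (H' : Subgroup GQ) (hH' : H' ≤ A.inertiaSubgroupIn ℚ) {τ : GQ}
    (hτ : τ ∈ A.inertiaSubgroupIn ℚ)
    (hcos : ∀ g ∈ A.inertiaSubgroupIn ℚ, ∃ i < p, ∃ h ∈ H', g = τ ^ i * h)
    {z0 : Kb} (hz : IsZ0 A p H' τ z0) {Tx : FN (M * p) →* FN (M * p)} {d : ℕ}
    (hT : S40.HeckeOp (TT hpM A) Tx d)
    (hTgal : ∀ (σ : GQ) (u : FN (M * p)), gal (M * p) σ • Tx u = Tx (gal (M * p) σ • u))
    {f : FN (M * p)} (hf : ∀ σ ∈ H', gal (M * p) σ • f = f) (hf0 : f ≠ 0)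
    (E : Divisor Kb (FN (M * p))) (hE : ∀ P : Place Kb (FN (M * p)), P.ord f = p * E P)
    (E₂ : Divisor Kb (FN (M * p)))
    (hE₂ : ∀ P : Place Kb (FN (M * p)), P.ord (Tx f * (f ^ d)⁻¹) = p * E₂ P) :
    (TT hpM A).R₁.O.valuation (Tx f * (f ^ d)⁻¹) = 1 ∧
    (TT hpM A).R₂.O.valuation (Tx f * (f ^ d)⁻¹) = 1 ∧
    (∀ Q : Place (ResidueField A) (Fb (ResidueField A) M),
      (p : ℤ) ∣ Q.ord (rd₁ (TT hpM A) (Tx f * (f ^ d)⁻¹))) ∧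
    ∀ Q : Place (ResidueField A) (Fb (ResidueField A) M),
      (p : ℤ) ∣ Q.ord (rd₂ (TT hpM A) (Tx f * (f ^ d)⁻¹)) := by
  obtain ⟨-, 𝒩, -, -, hP, -, -, -, -, -, hcompat, -⟩ := exists_nodalData_fixed hpM A h49 hA
  rcases h49 with h | h
  · exact eis_wild_mod_aux hpM A S36.wt1Four h hA 𝒩 hP hcompat H' hH' hτ hcos hz hT hTgal hf hf0
      E hE E₂ hE₂
  · exact eis_wild_mod_aux hpM A S36.wt1Nine h hA 𝒩 hP hcompat H' hH' hτ hcos hz hT hTgal hf hf0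
      E hE E₂ hE₂

/-- **The Eisenstein step, tame case, at the level `M * p`.** -/
theorem eis_tame_mod (h49 : 4 ∣ M ∨ 9 ∣ M) (hA : A.LiesOverPrime p)
    {Tx : FN (M * p) →* FN (M * p)} {d : ℕ} (hT : S40.HeckeOp (TT hpM A) Tx d)
    (hTgal : ∀ (σ : GQ) (u : FN (M * p)), gal (M * p) σ • Tx u = Tx (gal (M * p) σ • u))
    {f : FN (M * p)} (hf : ∀ σ ∈ A.inertiaSubgroupIn ℚ, gal (M * p) σ • f = f) (hf0 : f ≠ 0)
    (E₂ : Divisor Kb (FN (M * p)))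
    (hE₂ : ∀ P : Place Kb (FN (M * p)), P.ord (Tx f * (f ^ d)⁻¹) = p * E₂ P) :
    (TT hpM A).R₁.O.valuation (Tx f * (f ^ d)⁻¹) = 1 ∧
    (TT hpM A).R₂.O.valuation (Tx f * (f ^ d)⁻¹) = 1 ∧
    (∀ Q : Place (ResidueField A) (Fb (ResidueField A) M),
      (p : ℤ) ∣ Q.ord (rd₁ (TT hpM A) (Tx f * (f ^ d)⁻¹))) ∧
    ∀ Q : Place (ResidueField A) (Fb (ResidueField A) M),
      (p : ℤ) ∣ Q.ord (rd₂ (TT hpM A) (Tx f * (f ^ d)⁻¹)) := by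
  obtain ⟨-, 𝒩, -, -, hP, -, -, -, -, -, hcompat, -⟩ := exists_nodalData_fixed hpM A h49 hA
  rcases h49 with h | h
  · exact eis_tame_mod_aux hpM A S36.wt1Four h hA 𝒩 hP hcompat hT hTgal hf hf0 E₂ hE₂
  · exact eis_tame_mod_aux hpM A S36.wt1Nine h hA 𝒩 hP hcompat hT hTgal hf hf0 E₂ hE₂

end Fermat.Agent.SSP
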