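import Fermat.Agent.SS.H1C.Nodal
import Fermat.Agent.SSP.RatDiff
import Fermat.Agent.SSP.Arith2
import Fermat.Agent.SSP.Sup

/-!
# SSP / Mod : the concrete level `M * p` : rational functions, (h1), (h2) for the sup-norm

`T = TT hpM A = SS.twoRed hpM (residue A) residue_surjective`, `gal (M * p) σ`, `I = A.inertiaSubgroupIn ℚ`.

* `gal_smul_wF` : the orthonormal basis `wF h x = α(u) ^ a * β(j) ^ b` has rational `q`-expansion.  `Subtype.ext`, `coe_gal_smul`;
  `coe_heckeAlphaBar`, `coe_heckeBetaBar`; `coeffMap σ (castLS Kb u) = castLS Kb u`, `coeffMap σ (qExpand ..) = qExpand .. (coeffMap σ ..)`;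
  or: `gal` commutes with `heckeAlphaBar`, `heckeBetaBar` (look in `SS/Top35/CompatF.lean`, `SS/Mod/Compat.lean`, `RED/GalEq`), `gal_smul_jF`.
* `supData_mod` : `R := RR hpM (residue A) residue_surjective`, `H := isON hpM _ _ h rfl` (`h` from `exists_isCoreExt`, see `exists_isON`),
  `t = jF (M * p)`, `w = wF h`, `κ = H'`, `g σ = gal (M * p) σ`.
  `scale` : `exists_rat_scale` gives `u = c y'`, `c ≠ 0` `H'`-fixed, `y' ∈ R.O`, `R.rd y' ≠ 0`; `scale_of_z0_aux` : `c / z0 ^ n` is a unit of `A`;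
  `u / z0 ^ n = (c / z0 ^ n) y'`, `R.rd` of it is `residue (c / z0 ^ n) • R.rd y' ≠ 0` (`SemiRed.rd_mul`, `rd_const`); `twoRed_O`, `twoRed_red`.
  `diff` : `rat_diff_aux` with (K3) `= diff_of_z0_aux`; `hτA` : `τ ∈ I ≤` decomposition group.
* `scale0_sup_mod` : the same with `κ = I` and `S36.exists_zpow_of_inertia_fixed`.
-/

set_option autoImplicit false
set_option linter.unusedSectionVars false

noncomputable section

open AlgebraicCurve ModularCurve IsLocalRing

namespace Fermat.Agent.SSP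

open Fermat.Agent.RED hiding Kb
open Fermat.Agent.S24 Fermat.Agent.SS
open Fermat.Agent.RED.Cusp (Fb jb)

variable {M p : ℕ} [NeZero M] [hp : Fact p.Prime] (hpM : ¬ p ∣ M)
variable (A : ValuationSubring Kb) [CharP (ResidueField A) p] [IsAlgClosed (ResidueField A)]

/-- the two reductions of the function field of level `M * p` -/
abbrev TT : TwoRed Kb (FN (M * p)) (ResidueField A) (Fb (ResidueField A) M) :=
  twoRed hpM (residue A) residue_surjective

/-- the field of the functions fixed by the subgroup `H'` of `G_ℚ` -/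
def ratH (N : ℕ) (H' : Subgroup GQ) : Subfield (FN N) where
  carrier := {f | ∀ σ ∈ H', gal N σ • f = f}
  mul_mem' ha hb σ hσ := by rw [smul_mul', ha σ hσ, hb σ hσ]
  one_mem' σ _ := smul_one _
  add_mem' ha hb σ hσ := by rw [smul_add, ha σ hσ, hb σ hσ]
  zero_mem' σ _ := smul_zero _
  neg_mem' ha σ hσ := by rw [smul_neg, ha σ hσ]
  inv_mem' f ha σ hσ := by rw [smul_inv'', ha σ hσ]

theorem mem_ratH {N : ℕ} {H' : Subgroup GQ} {f : FN N} :
    f ∈ ratH N H' ↔ ∀ σ ∈ H', gal N σ • f = f := Iff.rfl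

theorem baseAut_gal (N : ℕ) (σ : GQ) (c : Kb) : SemilinearAut.baseAut (gal N σ) c = σ c := by
  have h := gal_smul_algebraMap N σ c
  rw [SemilinearAut.smul_algebraMap] at h
  exact (algebraMap Kb (FN N)).injective h

theorem algebraMap_mem_ratH {N : ℕ} {H' : Subgroup GQ} {c : Kb} (hc : ∀ σ ∈ H', σ c = c) :
    algebraMap Kb (FN N) c ∈ ratH N H' := fun σ hσ => by
  rw [gal_smul_algebraMap, hc σ hσ]

theorem gal_smul_wF {n : ℕ} {u : LaurentSeries ℤ} (h : IsCoreExt M p n u) (σ : GQ)
    (x : Fin n × Fin (p + 1)) : gal (M * p) σ • wF h x = wF h x := by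
  have hu : gal M σ • uF h = uF h := by
    apply Subtype.ext
    rw [coe_gal_smul]
    exact Fermat.Agent.S28.coeffMap_castLS _ u
  have ha := Fermat.Agent.GAL.HeckeGalois.compat_alpha M p σ (uF h)
  have hb := Fermat.Agent.GAL.HeckeGalois.compat_beta M p σ (jF M)
  rw [hu] at ha
  rw [gal_smul_jF] at hb
  rw [wF, smul_mul', smul_pow', smul_pow', ← ha, ← hb]

end Fermat.Agent.SSP
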