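import Fermat.Agent.SSP.Mod.S

/-!
# SSP / Mod : `s` is a modular unit; proof in the header of `SSP/Mod/S.lean`
-/

set_option autoImplicit false
set_option linter.unusedSectionVars false

noncomputable section

open AlgebraicCurve ModularCurve IsLocalRing

namespace Fermat.Agent.SSP

open Fermat.Agent.RED hiding Kb
open Fermat.Agent.S24 Fermat.Agent.SS
open Fermat.Agent.RED.Cusp (Fb jb)

/-- an element which is integral over `K[x]` lies in the valuation ring of every place which is not a pole of `x`. -/
theorem mem_place_of_isIntegral_adjoin {K F : Type*} [Field K] [Field F] [Algebra K F]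
    (v : Place K F) {x y : F} (hx : x ∈ v.toValuationSubring)
    (hy : IsIntegral (Algebra.adjoin K {x}) y) : y ∈ v.toValuationSubring := by
  have hle : Algebra.adjoin K {x} ≤
      (⟨v.toValuationSubring.toSubring.toSubsemiring, v.algebraMap_mem'⟩ : Subalgebra K F) := by
    rw [Algebra.adjoin_le_iff]
    rintro _ rfl
    exact hx
  obtain ⟨P, hP, hPy⟩ := hy
  have hmem : ∀ c : Algebra.adjoin K {x}, (c : F) ∈ v.toValuationSubring := fun c => hle c.2
  have hint : IsIntegral v.toValuationSubring y := by
    refine ⟨P.map ((algebraMap (Algebra.adjoin K {x}) F).codRestrict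
      v.toValuationSubring.toSubring hmem), hP.map _, ?_⟩
    rw [Polynomial.eval₂_map]
    exact hPy
  obtain ⟨z, hz⟩ := IsIntegrallyClosed.isIntegral_iff.mp hint
  rw [← hz]
  exact z.2

variable {M p : ℕ} [NeZero M] [hp : Fact p.Prime] (hpM : ¬ p ∣ M)
variable {M₀ : ℕ} [NeZero M₀] (D : S36.Wt1 M₀) (hM : M₀ ∣ M)

/-- `s` has no zero or pole outside the cusps -/
theorem ord_sF (v : Place Kb (FN (M * p))) (hv : 0 ≤ v.ord (jF (M * p))) :
    v.ord (sF (p := p) D hM) = 0 := by
  have hj : jF (M * p) ∈ v.toValuationSubring := by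
    rcases eq_or_ne (jF (M * p)) 0 with h0 | h0
    · rw [h0]; exact zero_mem _
    · exact (Place.mem_iff_ord_nonneg v h0).2 hv
  have h1 : sF (p := p) D hM ∈ v.toValuationSubring :=
    mem_place_of_isIntegral_adjoin v hj (D.isIntegral_ratF _ _ _ _ _)
  have h2 : (sF (p := p) D hM)⁻¹ ∈ v.toValuationSubring := by
    rw [inv_sF]
    exact mem_place_of_isIntegral_adjoin v hj (D.isIntegral_ratF _ _ _ _ _)
  have hs := sF_ne_zero (p := p) D hM
  have h1' := (Place.mem_iff_ord_nonneg v hs).1 h1
  have h2' := (Place.mem_iff_ord_nonneg v (inv_ne_zero hs)).1 h2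
  rw [v.ord_inv] at h2'
  omega

end Fermat.Agent.SSP
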