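import Fermat.Agent.SSP.Mod.S

/-!
# SSP / Mod : the two valuations of `s`; proof in the header of `SSP/Mod/S.lean`
-/

set_option autoImplicit false
set_option linter.unusedSectionVars false

noncomputable section

open AlgebraicCurve ModularCurve IsLocalRing

namespace Fermat.Agent.SSP

open Fermat.Agent.RED hiding Kb
open Fermat.Agent.S24 Fermat.Agent.SS
open Fermat.Agent.RED.Cusp (Fb jb)
open Fermat.Agent.RED.Gauss

variable {M p : ℕ} [NeZero M] [hp : Fact p.Prime] (hpM : ¬ p ∣ M)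
variable {M₀ : ℕ} [NeZero M₀] (D : S36.Wt1 M₀) (hM : M₀ ∣ M)

variable (A : ValuationSubring Kb) [CharP (ResidueField A) p] [IsAlgClosed (ResidueField A)]

section Aux

variable {A}

/-- a function whose two expansions are integral is in `T.O` -/
theorem sval_mem {y : FN (M * p)} {a b : LaurentSeries A} (h₁ : emb₁ M p y = iota A a)
    (h₂ : emb₂ M p hpM y = iota A b) : y ∈ (TT hpM A).O := by
  rw [TT, twoRed_O, RR_O]
  exact mem_ofEmb_O_of_iota h₁ h₂

theorem sval_red {y : FN (M * p)} {a b : LaurentSeries A} (h₁ : emb₁ M p y = iota A a)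
    (h₂ : emb₂ M p hpM y = iota A b) :
    ((((TT hpM A).red ⟨y, sval_mem hpM h₁ h₂⟩).1 : Fb (ResidueField A) M) :
        LaurentSeries (ResidueField A)) = pi (residue A) a ∧
    ((((TT hpM A).red ⟨y, sval_mem hpM h₁ h₂⟩).2 : Fb (ResidueField A) M) :
        LaurentSeries (ResidueField A)) = pi (residue A) b := by
  have h : (R₀ M p hpM (residue A)).rd y = (pi (residue A) a, pi (residue A) b) :=
    ofEmb_rd_of_iota (π := residue A) h₁ h₂
  constructor
  · rw [twoRed_red, coe_RR_rd_fst]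
    exact congrArg Prod.fst h
  · rw [twoRed_red, coe_RR_rd_snd]
    exact congrArg Prod.snd h

theorem sval_val₁ {y : FN (M * p)} {a b : LaurentSeries A} (h₁ : emb₁ M p y = iota A a)
    (h₂ : emb₂ M p hpM y = iota A b) (ha : pi (residue A) a ≠ 0) :
    (TT hpM A).R₁.O.valuation y = 1 := by
  have hmem := sval_mem hpM h₁ h₂
  have hred : (TT hpM A).R₁.red ⟨y, hmem.1⟩ ≠ 0 := by
    intro h0
    apply ha
    rw [← (sval_red hpM h₁ h₂).1, TwoRed.red_fst]
    have : (TT hpM A).R₁.red ⟨((⟨y, hmem⟩ : (TT hpM A).O) : FN (M * p)), hmem.1⟩ = 0 := h0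
    rw [this]
    rfl
  exact (ValuationSubring.valuation_eq_one_iff _ _).1
    ((TT hpM A).R₁.isUnit_of_red_ne_zero ⟨y, hmem.1⟩ hred)

theorem sval_val₂ {y : FN (M * p)} {a b : LaurentSeries A} (h₁ : emb₁ M p y = iota A a)
    (h₂ : emb₂ M p hpM y = iota A b) (hb : pi (residue A) b ≠ 0) :
    (TT hpM A).R₂.O.valuation y = 1 := by
  have hmem := sval_mem hpM h₁ h₂
  have hred : (TT hpM A).R₂.red ⟨y, hmem.2⟩ ≠ 0 := by
    intro h0
    apply hb
    rw [← (sval_red hpM h₁ h₂).2, TwoRed.red_snd]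
    have : (TT hpM A).R₂.red ⟨((⟨y, hmem⟩ : (TT hpM A).O) : FN (M * p)), hmem.2⟩ = 0 := h0
    rw [this]
    rfl
  exact (ValuationSubring.valuation_eq_one_iff _ _).1
    ((TT hpM A).R₂.isUnit_of_red_ne_zero ⟨y, hmem.2⟩ hred)

end Aux

theorem emb₁_sF : emb₁ M p (sF D hM) = iota A (D.ratS A 1 p) := by
  rw [emb₁_apply, D.iota_ratS]
  rfl

theorem emb₁_sInvF : emb₁ M p (sInvF D hM) = iota A (D.ratS A p 1) := by
  rw [emb₁_apply, D.iota_ratS]
  rfl

theorem emb₂_sF : emb₂ M p hpM (sF D hM) =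
    iota A (((D.χ (p : ℤ) * (p : ℤ) : ℤ) : LaurentSeries A) * D.ratS A p 1) := by
  have : ((D.χ (p : ℤ) : ℤ) : Kb) * (p : Kb) = ((D.χ (p : ℤ) * (p : ℤ) : ℤ) : Kb) := by
    push_cast; ring
  rw [emb₂, AlgHom.comp_apply, swAlg_sF, this, map_intCast, map_mul, map_mul,
    emb₁_sInvF D hM A, map_intCast, map_intCast]

/-- `w (p / s) = χ(p) s` -/
theorem swAlg_p_mul_sInvF : swAlg M p hpM ((p : FN (M * p)) * sInvF D hM) =
    ((D.χ (p : ℤ) : ℤ) : FN (M * p)) * sF D hM := by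
  have h0 : swAlg M p hpM (sF D hM) ≠ 0 :=
    (map_ne_zero_iff _ (swAlg M p hpM).toRingHom.injective).2 (sF_ne_zero D hM)
  apply mul_right_cancel₀ h0
  rw [← map_mul, mul_assoc, mul_comm (sInvF D hM), sF_mul_sInvF, mul_one, map_natCast, swAlg_sF,
    map_mul, map_intCast, map_natCast]
  have h1 : ((D.χ (p : ℤ) : ℤ) : FN (M * p)) * ((D.χ (p : ℤ) : ℤ) : FN (M * p)) = 1 := by
    rw [← Int.cast_mul, D.chi_sq, Int.cast_one]
  calc (p : FN (M * p)) = (((D.χ (p : ℤ) : ℤ) : FN (M * p)) * ((D.χ (p : ℤ) : ℤ) : FN (M * p))) *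
        (p : FN (M * p)) * (sF D hM * sInvF D hM) := by rw [h1, sF_mul_sInvF, one_mul, mul_one]
    _ = _ := by ring

theorem val₁_sF : (TT hpM A).R₁.O.valuation (sF D hM) = 1 := by
  refine sval_val₁ hpM (emb₁_sF D hM A) (emb₂_sF hpM D hM A) ?_
  rw [D.pi_ratS]
  exact D.ratS_ne_zero _ 1 p

theorem val₂_sF : (TT hpM A).R₂.O.valuation (sF D hM * (p : FN (M * p))⁻¹) = 1 := by
  have h₁ : emb₁ M p ((p : FN (M * p)) * sInvF D hM) =
      iota A ((p : LaurentSeries A) * D.ratS A p 1) := by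
    rw [map_mul, map_mul, emb₁_sInvF D hM A, map_natCast, map_natCast]
  have h₂ : emb₂ M p hpM ((p : FN (M * p)) * sInvF D hM) =
      iota A (((D.χ (p : ℤ) : ℤ) : LaurentSeries A) * D.ratS A 1 p) := by
    rw [emb₂, AlgHom.comp_apply, swAlg_p_mul_sInvF, map_mul, map_mul, emb₁_sF D hM A, map_intCast,
      map_intCast]
  have hv : (TT hpM A).R₂.O.valuation ((p : FN (M * p)) * sInvF D hM) = 1 := by
    refine sval_val₂ hpM h₁ h₂ ?_
    rw [map_mul, D.pi_ratS, map_intCast]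
    refine mul_ne_zero ?_ (D.ratS_ne_zero _ 1 p)
    intro h0
    have h1 : ((D.χ (p : ℤ) : ℤ) : LaurentSeries (ResidueField A)) *
        ((D.χ (p : ℤ) : ℤ) : LaurentSeries (ResidueField A)) = 1 := by
      rw [← Int.cast_mul, D.chi_sq, Int.cast_one]
    rw [h0, zero_mul] at h1
    exact zero_ne_one h1
  have he : sF D hM * (p : FN (M * p))⁻¹ = ((p : FN (M * p)) * sInvF D hM)⁻¹ := by
    rw [mul_inv, ← inv_sF, inv_inv]
    exact mul_comm _ _
  rw [he, map_inv₀, hv, inv_one]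

end Fermat.Agent.SSP
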