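import Fermat.Agent.SSP.Mod.Basic

/-!
# SSP / Mod : `supData_mod`; proof in the header of `SSP/Mod/Basic.lean`
-/

set_option autoImplicit false
set_option linter.unusedSectionVars false

noncomputable section

open AlgebraicCurve ModularCurve IsLocalRing

namespace Fermat.Agent.SSP

open Fermat.Agent.RED hiding Kb
open Fermat.Agent.S24 Fermat.Agent.SS
open Fermat.Agent.RED.Cusp (Fb jb)

variable {M p : ℕ} [NeZero M] [hp : Fact p.Prime] (hpM : ¬ p ∣ M)
variable (A : ValuationSubring Kb) [CharP (ResidueField A) p] [IsAlgClosed (ResidueField A)]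

open Pointwise in
omit [CharP (ResidueField A) p] [IsAlgClosed (ResidueField A)] in
/-- the inertia group preserves `A` -/
theorem sup_apply_mem_iff {τ : GQ} (hτ : τ ∈ A.inertiaSubgroupIn ℚ) (c : Kb) : τ c ∈ A ↔ c ∈ A := by
  have hdec : τ • A = A := by
    obtain ⟨τ', -, rfl⟩ := Subgroup.mem_map.1 hτ
    exact τ'.2
  conv_lhs => rw [← hdec]
  exact ValuationSubring.smul_mem_pointwise_smul_iff (g := τ) (S := A) (x := c)

/-- **(h1), (h2) for the sup-norm** -/
theorem supData_mod (hA : A.LiesOverPrime p) (H' : Subgroup GQ) {τ : GQ}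
    (hτ : τ ∈ A.inertiaSubgroupIn ℚ)
    (hcos : ∀ g ∈ A.inertiaSubgroupIn ℚ, ∃ i < p, ∃ h ∈ H', g = τ ^ i * h)
    {z0 : Kb} (hz : IsZ0 A p H' τ z0) :
    SupData (TT hpM A) (gal (M * p) τ) (ratH (M * p) H') z0 (τ z0 - z0) := by
  obtain ⟨u₀, h⟩ := exists_isCoreExt M p hpM
  have hn : Fintype.card (Fermat.Agent.S28.Q M) = dedekindPsi M := by
    rw [← Nat.card_eq_fintype_card]; exact S20.card_quotient_Gamma0 M
  rw [hn] at h
  have H := isON hpM (residue A) residue_surjective h rfl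
  set R := RR hpM (residue A) residue_surjective with hR
  refine ⟨fun u hu hu0 => ?_, fun u hu huO => ?_⟩
  · obtain ⟨c, y', hc, hcfix, hy', hrd, hy⟩ := exists_rat_scale H
      (κ := H') (fun σ => gal (M * p) σ.1)
      (fun σ => gal_smul_jF _ _) (fun σ i => gal_smul_wF h σ.1 i) (fun σ => hu σ.1 σ.2) hu0
    have hcfix' : ∀ σ ∈ H', σ c = c := fun σ hσ => by
      rw [← baseAut_gal (M * p) σ c]; exact hcfix ⟨σ, hσ⟩
    obtain ⟨n, hve⟩ := scale_of_z0_aux hp.out hA H' hτ hcos hz hcfix' hc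
    set e : Kb := c * (z0 ^ n)⁻¹ with he
    have heA : e ∈ A := (A.valuation_le_one_iff e).mp hve.le
    have hunit : IsUnit (⟨e, heA⟩ : A) := (A.valuation_eq_one_iff ⟨e, heA⟩).mpr hve
    have hres : residue A ⟨e, heA⟩ ≠ 0 := by
      intro h0
      exact ((residue_eq_zero_iff _).mp h0) hunit
    have hrw : u * (algebraMap Kb (FN (M * p)) z0 ^ n)⁻¹ = algebraMap Kb (FN (M * p)) e * y' := by
      rw [hy, he, map_mul, map_inv₀, map_zpow₀]
      ring
    have heO : algebraMap Kb (FN (M * p)) e ∈ R.O :=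
      (R.algebraMap_mem_O_iff residue_surjective e).mpr heA
    have hmem : u * (algebraMap Kb (FN (M * p)) z0 ^ n)⁻¹ ∈ (TT hpM A).O := by
      rw [twoRed_O, hrw]
      exact R.O.mul_mem heO hy'
    refine ⟨n, hmem, ?_⟩
    rw [twoRed_red]
    show R.rd (u * (algebraMap Kb (FN (M * p)) z0 ^ n)⁻¹) ≠ 0
    rw [hrw, R.rd_mul heO hy']
    have h1 : R.rd (algebraMap Kb (FN (M * p)) e) =
        algebraMap (ResidueField A) _ (residue A ⟨e, heA⟩) := R.rd_const ⟨e, heA⟩
    rw [h1]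
    have hU : IsUnit (algebraMap (ResidueField A) (Fb (ResidueField A) M × Fb (ResidueField A) M)
        (residue A ⟨e, heA⟩)) := (IsUnit.mk0 _ hres).map _
    exact fun h0 => hrd ((hU.mul_right_eq_zero).mp h0)
  · rw [twoRed_O] at huO ⊢
    refine rat_diff_aux H (κ := H') (fun σ => gal (M * p) σ.1)
      (fun σ => gal_smul_jF _ _) (fun σ i => gal_smul_wF h σ.1 i) (gal (M * p) τ)
      (gal_smul_jF _ _) (fun i => gal_smul_wF h τ i) (fun c => ?_) hz.μ_ne (fun c hc hcA => ?_)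
      (fun σ => hu σ.1 σ.2) huO
    · rw [baseAut_gal]
      exact sup_apply_mem_iff A hτ c
    · rw [baseAut_gal, ← A.valuation_le_one_iff]
      refine diff_of_z0_aux hp.out hA H' hτ hcos hz (fun σ hσ => ?_)
        ((A.valuation_le_one_iff c).mpr hcA)
      rw [← baseAut_gal (M * p) σ c]; exact hc ⟨σ, hσ⟩

end Fermat.Agent.SSP
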