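import Fermat.Agent.SSP.Mod.Rat
import Fermat.Agent.SSP.Mod.Sup
import Fermat.Agent.SSP.Mod.SVal
import Fermat.Agent.SSP.Mod.SOrd
import Fermat.Agent.SSP.Sup2
import Fermat.Agent.SSP.Thick2
import Fermat.Agent.SSP.FDA
import Fermat.Agent.SSP.FDB
import Fermat.Agent.SSP.FD0B

/-!
# SSP / Mod : (FD-A), (FD-B), (FD0-B) at the level `M * p`
-/

set_option autoImplicit false
set_option linter.unusedSectionVars false

noncomputable section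

open AlgebraicCurve ModularCurve IsLocalRing

namespace Fermat.Agent.SSP

open Fermat.Agent.RED hiding Kb
open Fermat.Agent.S24 Fermat.Agent.SS Fermat.Agent.ND
open Fermat.Agent.RED.Cusp (Fb jb)

variable {M p : ℕ} [NeZero M] [hp : Fact p.Prime] (hpM : ¬ p ∣ M)
variable (A : ValuationSubring Kb) [CharP (ResidueField A) p] [IsAlgClosed (ResidueField A)]
variable {M₀ : ℕ} [NeZero M₀] (D : S36.Wt1 M₀) (hM : M₀ ∣ M)

theorem natCast_eq_algebraMap (N : ℕ) : (p : FN N) = algebraMap Kb (FN N) (p : Kb) := by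
  rw [map_natCast]

theorem p_ne_zero_Kb : (p : Kb) ≠ 0 := by exact_mod_cast hp.out.ne_zero

theorem sF_mem_ratH (H' : Subgroup GQ) : sF (p := p) D hM ∈ ratH (M * p) H' :=
  fun σ _ => gal_smul_sF D hM σ

theorem arch_TT (hA : A.LiesOverPrime p) (π c : Kb) (hc : c ≠ 0) (hπ : π ∈ (TT hpM A).A)
    (hπ' : π⁻¹ ∉ (TT hpM A).A) : ∃ n : ℕ, π ^ n * c⁻¹ ∈ (TT hpM A).A := by
  rw [twoRed_A] at hπ hπ' ⊢
  exact arch_of_liesOverPrime A hp.out hA π c hc hπ hπ'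

include D hM in
/-- the valuations of the inertia-fixed functions are powers of `|p|` -/
theorem scale0_mod (hA : A.LiesOverPrime p) :
    (∀ u ∈ ratH (M * p) (A.inertiaSubgroupIn ℚ), u ≠ 0 → ∃ n : ℤ,
      (TT hpM A).R₁.O.valuation (u * (algebraMap Kb (FN (M * p)) (p : Kb) ^ n)⁻¹) = 1) ∧
    (∀ u ∈ ratH (M * p) (A.inertiaSubgroupIn ℚ), u ≠ 0 → ∃ n : ℤ,
      (TT hpM A).R₂.O.valuation (u * (algebraMap Kb (FN (M * p)) (p : Kb) ^ n)⁻¹) = 1) :=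
  scale_of_sup (arch_TT hpM A hA) p_ne_zero_Kb (by rw [twoRed_A]; exact val_p_lt_one A hA)
    p_ne_zero_Kb (sF_mem_ratH D hM _) (val₁_sF hpM D hM A) (val₂_sF hpM D hM A)
    (fun u hu hu0 => scale0_sup_mod hpM A hA hu hu0)

theorem val_lt_one_iff_inv_notMem {L : Type*} [Field L] (O : ValuationSubring L) {x : L}
    (hx : x ≠ 0) : O.valuation x < 1 ↔ x⁻¹ ∉ O := by
  have h0 : 0 < O.valuation x := zero_lt_iff.mpr ((Valuation.ne_zero_iff _).mpr hx)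
  rw [← O.valuation_le_one_iff, map_inv₀, inv_le_one₀ h0, not_le]

theorem val_const_lt_iff {K F k Fb : Type*} [Field K] [Field F] [Algebra K F] [Field k] [Field Fb]
    [Algebra k Fb] (T : TwoRed K F k Fb) (c : K) :
    T.R₁.O.valuation (algebraMap K F c) < 1 ↔ T.A.valuation c < 1 := by
  rcases eq_or_ne c 0 with rfl | hc
  · simp
  have hcF : algebraMap K F c ≠ 0 := by simpa using hc
  rw [val_lt_one_iff_inv_notMem _ hcF, val_lt_one_iff_inv_notMem _ hc, ← map_inv₀]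
  exact Iff.rfl

theorem val₁_p_lt (hA : A.LiesOverPrime p) : (TT hpM A).R₁.O.valuation (p : FN (M * p)) < 1 := by
  rw [natCast_eq_algebraMap, val_const_lt_iff, twoRed_A]
  exact val_p_lt_one A hA

theorem val₂_p_lt (hA : A.LiesOverPrime p) : (TT hpM A).R₂.O.valuation (p : FN (M * p)) < 1 := by
  rw [natCast_eq_algebraMap, ← const_lt_iff, ← natCast_eq_algebraMap]
  exact val₁_p_lt hpM A hA

/-- the interface `Geo` at the level `M * p` -/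
abbrev geoM (𝒩 : NodalData (TT hpM A)) (s₀ : 𝒩.S) : Geo 𝒩 :=
  geo (RB.isSepParam_jF (M * p)) (Cusp.isSepParam_jb M (ResidueField A) p hpM) s₀

/-- `s` is a slope function -/
theorem slopeFn_mod (hA : A.LiesOverPrime p) (𝒩 : NodalData (TT hpM A))
    (hP : 𝒩.P = polarDiv Kb (jF (M * p)))
    (hcompat : ∀ σ ∈ A.inertiaSubgroupIn ℚ, IsCompat 𝒩 (gal (M * p) σ) 1) (s₀ : 𝒩.S) :
    SlopeFn (geoM hpM A 𝒩 s₀) p (sF D hM) := by
  refine slopeFn_of_rat _ _ s₀ (rat_mod hpM A hA 𝒩 hcompat) (val₂_p_lt hpM A hA) ?_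
    (val₁_sF hpM D hM A) (val₂_sF hpM D hM A) ?_
  · intro u hu hu1
    rcases eq_or_ne u 0 with rfl | hu0
    · simp
    obtain ⟨n, hn⟩ := (scale0_mod hpM A D hM hA).2 u (fun σ hσ => hu _ ⟨σ, hσ, rfl⟩) hu0
    rw [← natCast_eq_algebraMap] at hn
    have hpF : (p : FN (M * p)) ≠ 0 := by
      rw [natCast_eq_algebraMap]; simpa using (p_ne_zero_Kb (p := p))
    have hv0 : (TT hpM A).R₂.O.valuation (p : FN (M * p)) ≠ 0 := (Valuation.ne_zero_iff _).2 hpF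
    have hlt := val₂_p_lt hpM A hA
    have hun : (TT hpM A).R₂.O.valuation u = (TT hpM A).R₂.O.valuation (p : FN (M * p)) ^ n := by
      rw [map_mul, map_inv₀, map_zpow₀] at hn
      exact (mul_inv_eq_one₀ (zpow_ne_zero _ hv0)).1 hn
    have hn1 : 1 ≤ n := by
      by_contra hcon
      have hn0 : n ≤ 0 := by omega
      rw [hun] at hu1
      obtain ⟨m, hm⟩ := Int.eq_ofNat_of_zero_le (by omega : 0 ≤ -n)
      have h1 : (TT hpM A).R₂.O.valuation (p : FN (M * p)) ^ (-n) ≤ 1 := by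
        rw [hm]
        exact pow_le_one₀ zero_le hlt.le
      rw [zpow_neg] at h1
      have h2 := mul_lt_mul_of_pos_left hu1 (zero_lt_iff.2 (inv_ne_zero (zpow_ne_zero n hv0)))
      rw [inv_mul_cancel₀ (zpow_ne_zero n hv0), mul_one] at h2
      exact absurd h1 (not_le.2 h2)
    obtain ⟨m, hm⟩ := Int.eq_ofNat_of_zero_le (by omega : 0 ≤ n - 1)
    rw [map_mul, map_inv₀, hun, ← zpow_sub_one₀ hv0, hm]
    exact pow_le_one₀ zero_le hlt.le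
  · intro v hv
    apply ord_sF
    by_contra hneg
    apply hv
    apply smooth_of_P_pos (RB.isSepParam_jF (M * p)) (Cusp.isSepParam_jb M (ResidueField A) p hpM)
    rw [hP, (RB.isSepParam_jF (M * p)).polarDiv_apply]
    exact lt_max_of_lt_left (by omega)

theorem isInert_mod (𝒩 : NodalData (TT hpM A))
    (hcompat : ∀ σ ∈ A.inertiaSubgroupIn ℚ, IsCompat 𝒩 (gal (M * p) σ) 1) (s₀ : 𝒩.S) {σ : GQ}
    (hσ : σ ∈ A.inertiaSubgroupIn ℚ) : IsInert (geoM hpM A 𝒩 s₀) (gal (M * p) σ) :=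
  isInert_of_isCompat _ _ s₀ (hcompat σ hσ)

/-- a divisor `D` with `p D = div f`, `f` fixed by `g`, is fixed by `g` -/
theorem smul_divisor_of_smul_eq {K F : Type*} [Field K] [Field F] [Algebra K F] {n : ℕ}
    (hn : n ≠ 0) {g : SemilinearAut K F} {f : F} (hf : g • f = f) {D : Divisor K F}
    (hD : ∀ P : Place K F, P.ord f = n * D P) : g • D = D := by
  ext P
  rw [SemilinearAut.divisor_smul_apply]
  have h1 := SemilinearAut.ord_smul g (g⁻¹ • P) f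
  rw [smul_inv_smul, hf, hD, hD] at h1
  have hn' : (n : ℤ) ≠ 0 := by exact_mod_cast hn
  exact (mul_left_cancel₀ hn' h1).symm

include D hM in
/-- local equations at the level `M * p` -/
theorem locEqs_mod (hA : A.LiesOverPrime p) (𝒩 : NodalData (TT hpM A))
    (hP : 𝒩.P = polarDiv Kb (jF (M * p)))
    (hcompat : ∀ σ ∈ A.inertiaSubgroupIn ℚ, IsCompat 𝒩 (gal (M * p) σ) 1) (s₀ : 𝒩.S)
    (H' : Subgroup GQ) (hH' : H' ≤ A.inertiaSubgroupIn ℚ) {f : FN (M * p)}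
    (hf : f ∈ ratH (M * p) H') (E : Divisor Kb (FN (M * p)))
    (hE : ∀ P : Place Kb (FN (M * p)), P.ord f = p * E P) :
    LocEqs (geoM hpM A 𝒩 s₀) (ratH (M * p) H') E := by
  have hpF : (p : FN (M * p)) ≠ 0 := by
    rw [natCast_eq_algebraMap]; simpa using (p_ne_zero_Kb (p := p))
  refine locEqs_of_rat _ _ s₀ (rat_mod hpM A hA 𝒩 hcompat)
    (H'.map (arithmeticGalois (modularFunctionFieldFull (M * p)))) ?_ hpF (val₁_p_lt hpM A hA)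
    (slopeFn_mod hpM A D hM hA 𝒩 hP hcompat s₀) ?_ _ ?_ E ?_
  · rintro g ⟨σ, hσ, rfl⟩
    exact ⟨σ, hH' hσ, rfl⟩
  · rintro g ⟨σ, hσ, rfl⟩
    exact gal_smul_sF D hM σ
  · intro u hu σ hσ
    exact hu _ ⟨σ, hσ, rfl⟩
  · rintro g ⟨σ, hσ, rfl⟩
    exact smul_divisor_of_smul_eq hp.out.ne_zero (hf σ hσ) hE

/-- the datum of the first difference method at the level `M * p` -/
def wildM (hA : A.LiesOverPrime p) (𝒩 : NodalData (TT hpM A))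
    (hcompat : ∀ σ ∈ A.inertiaSubgroupIn ℚ, IsCompat 𝒩 (gal (M * p) σ) 1) (s₀ : 𝒩.S)
    (H' : Subgroup GQ) {τ : GQ} (hτ : τ ∈ A.inertiaSubgroupIn ℚ)
    (hcos : ∀ g ∈ A.inertiaSubgroupIn ℚ, ∃ i < p, ∃ h ∈ H', g = τ ^ i * h)
    {z0 : Kb} (hz : IsZ0 A p H' τ z0) : Wild (TT hpM A) (gal (M * p) τ) p :=
  have key := wildAt_of_sup (T := TT hpM A) (arch_TT hpM A hA)
    (isInert_mod hpM A 𝒩 hcompat s₀ hτ).val₁ (isInert_mod hpM A 𝒩 hcompat s₀ hτ).val₂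
    (p := p) (Rat := ratH (M * p) H') (z0 := z0) (μ := τ z0 - z0) (η := (τ z0 - z0) * z0⁻¹)
    p_ne_zero_Kb hz.ne hz.μ_ne (by rw [twoRed_A]; exact hz.lt) (by rw [twoRed_A]; exact hz.pow)
    (by rw [twoRed_A]; exact hz.η_lt) (by rw [twoRed_A]; exact hz.μ_le)
    (by rw [twoRed_A]; exact hz.p_lt) (sF_mem_ratH D hM H') (gal_smul_sF D hM τ)
    (val₁_sF hpM D hM A) (val₂_sF hpM D hM A) (supData_mod hpM A hA H' hτ hcos hz)
  { Rat := ratH (M * p) H'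
    z0 := z0
    μ := τ z0 - z0
    η := (τ z0 - z0) * z0⁻¹
    z0_ne := hz.ne
    μ_ne := hz.μ_ne
    p_ne := p_ne_zero_Kb
    τ_z0 := by rw [baseAut_gal]; ring
    η_mul := by rw [mul_assoc, inv_mul_cancel₀ hz.ne, mul_one]
    z0_rat := algebraMap_mem_ratH hz.fix
    at₁ := key.1
    at₂ := key.2 }

/-- `Ω(f) = (τ f / f - 1) / η ^ p`, `η = (τ z0 - z0) / z0` -/
def omM (τ : GQ) (z0 : Kb) (f : FN (M * p)) : FN (M * p) :=
  ((gal (M * p) τ • f) * f⁻¹ - 1) *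
    (algebraMap Kb (FN (M * p)) (((τ z0 - z0) * z0⁻¹) ^ p))⁻¹

include D hM in
theorem fdA_mod_aux (hA : A.LiesOverPrime p) (𝒩 : NodalData (TT hpM A))
    (hP : 𝒩.P = polarDiv Kb (jF (M * p)))
    (hcompat : ∀ σ ∈ A.inertiaSubgroupIn ℚ, IsCompat 𝒩 (gal (M * p) σ) 1)
    (H' : Subgroup GQ) (hH' : H' ≤ A.inertiaSubgroupIn ℚ) {τ : GQ}
    (hτ : τ ∈ A.inertiaSubgroupIn ℚ)
    (hcos : ∀ g ∈ A.inertiaSubgroupIn ℚ, ∃ i < p, ∃ h ∈ H', g = τ ^ i * h)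
    {z0 : Kb} (hz : IsZ0 A p H' τ z0) {f : FN (M * p)}
    (hf : ∀ σ ∈ H', gal (M * p) σ • f = f) (hf0 : f ≠ 0) (E : Divisor Kb (FN (M * p)))
    (hE : ∀ P : Place Kb (FN (M * p)), P.ord f = p * E P) :
    ∃ (n m : ℤ) (b₁ b₂ : ResidueField A),
      (TT hpM A).R₁.O.valuation (f * (algebraMap Kb (FN (M * p)) z0 ^ n)⁻¹) = 1 ∧
      (TT hpM A).R₂.O.valuation (f * (algebraMap Kb (FN (M * p)) z0 ^ n)⁻¹ *
        (algebraMap Kb (FN (M * p)) z0 ^ ((p : ℤ) * m))⁻¹) = 1 ∧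
      omM τ z0 (f * (algebraMap Kb (FN (M * p)) z0 ^ n)⁻¹) ∈ (TT hpM A).R₁.O ∧
      omM τ z0 (f * (algebraMap Kb (FN (M * p)) z0 ^ n)⁻¹) ∈ (TT hpM A).R₂.O ∧
      rd₁ (TT hpM A) (omM τ z0 (f * (algebraMap Kb (FN (M * p)) z0 ^ n)⁻¹)) =
        algebraMap (ResidueField A) (Fb (ResidueField A) M) b₁ ∧
      rd₂ (TT hpM A) (omM τ z0 (f * (algebraMap Kb (FN (M * p)) z0 ^ n)⁻¹)) =
        algebraMap (ResidueField A) (Fb (ResidueField A) M) b₂ := by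
  have hne : Nonempty 𝒩.S :=
    ND.exists_node (RB.isSepParam_jF (M * p)) (Cusp.isSepParam_jb M (ResidueField A) p hpM)
  obtain ⟨s₀⟩ := id hne
  exact fdA (geoM hpM A 𝒩 s₀) (wildM hpM A D hM hA 𝒩 hcompat s₀ H' hτ hcos hz)
    (Cusp.isSepParam_jb M (ResidueField A) p hpM) hp.out (isInert_mod hpM A 𝒩 hcompat s₀ hτ)
    (slopeFn_mod hpM A D hM hA 𝒩 hP hcompat s₀) (sF_mem_ratH D hM H') (gal_smul_sF D hM τ)
    hf hf0 E hE (locEqs_mod hpM A D hM hA 𝒩 hP hcompat s₀ H' hH' hf E hE)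

include D hM in
theorem fdB_mod_aux (hA : A.LiesOverPrime p) (𝒩 : NodalData (TT hpM A))
    (hP : 𝒩.P = polarDiv Kb (jF (M * p)))
    (hcompat : ∀ σ ∈ A.inertiaSubgroupIn ℚ, IsCompat 𝒩 (gal (M * p) σ) 1)
    (H' : Subgroup GQ) (hH' : H' ≤ A.inertiaSubgroupIn ℚ) {τ : GQ}
    (hτ : τ ∈ A.inertiaSubgroupIn ℚ)
    (hcos : ∀ g ∈ A.inertiaSubgroupIn ℚ, ∃ i < p, ∃ h ∈ H', g = τ ^ i * h)
    {z0 : Kb} (hz : IsZ0 A p H' τ z0) {f : FN (M * p)}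
    (hf : ∀ σ ∈ H', gal (M * p) σ • f = f)
    (hf1 : (TT hpM A).R₁.O.valuation f = 1) (hf2 : (TT hpM A).R₂.O.valuation f = 1)
    (E : Divisor Kb (FN (M * p))) (hE : ∀ P : Place Kb (FN (M * p)), P.ord f = p * E P)
    {b : ResidueField A}
    (hb₁ : rd₁ (TT hpM A) (omM τ z0 f) = algebraMap (ResidueField A) (Fb (ResidueField A) M) b)
    (hb₂ : rd₂ (TT hpM A) (omM τ z0 f) = algebraMap (ResidueField A) (Fb (ResidueField A) M) b) :
    (∀ Q : Place (ResidueField A) (Fb (ResidueField A) M), (p : ℤ) ∣ Q.ord (rd₁ (TT hpM A) f)) ∧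
    ∀ Q : Place (ResidueField A) (Fb (ResidueField A) M), (p : ℤ) ∣ Q.ord (rd₂ (TT hpM A) f) := by
  obtain ⟨s₀⟩ :=
    ND.exists_node (𝒩 := 𝒩) (RB.isSepParam_jF (M * p))
      (Cusp.isSepParam_jb M (ResidueField A) p hpM)
  exact fdB (geoM hpM A 𝒩 s₀) (wildM hpM A D hM hA 𝒩 hcompat s₀ H' hτ hcos hz)
    hp.out (isInert_mod hpM A 𝒩 hcompat s₀ hτ)
    (slopeFn_mod hpM A D hM hA 𝒩 hP hcompat s₀) (sF_mem_ratH D hM H') (gal_smul_sF D hM τ)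
    hf hf1 hf2 E hE (locEqs_mod hpM A D hM hA 𝒩 hP hcompat s₀ H' hH' hf E hE) hb₁ hb₂

include D hM in
theorem fd0B_mod_aux (hA : A.LiesOverPrime p) (𝒩 : NodalData (TT hpM A))
    (hP : 𝒩.P = polarDiv Kb (jF (M * p)))
    (hcompat : ∀ σ ∈ A.inertiaSubgroupIn ℚ, IsCompat 𝒩 (gal (M * p) σ) 1)
    {f : FN (M * p)} (hf : ∀ σ ∈ A.inertiaSubgroupIn ℚ, gal (M * p) σ • f = f)
    (hf1 : (TT hpM A).R₁.O.valuation f = 1) (hf2 : (TT hpM A).R₂.O.valuation f = 1)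
    (E : Divisor Kb (FN (M * p))) (hE : ∀ P : Place Kb (FN (M * p)), P.ord f = p * E P) :
    (∀ Q : Place (ResidueField A) (Fb (ResidueField A) M), (p : ℤ) ∣ Q.ord (rd₁ (TT hpM A) f)) ∧
    ∀ Q : Place (ResidueField A) (Fb (ResidueField A) M), (p : ℤ) ∣ Q.ord (rd₂ (TT hpM A) f) := by
  obtain ⟨s₀⟩ :=
    ND.exists_node (𝒩 := 𝒩) (RB.isSepParam_jF (M * p))
      (Cusp.isSepParam_jb M (ResidueField A) p hpM)
  have hsc := scale0_mod hpM A D hM hA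
  simp only [← natCast_eq_algebraMap] at hsc
  exact fd0B (geoM hpM A 𝒩 s₀) hp.out (val₂_p_lt hpM A hA) hsc.1 hsc.2
    (slopeFn_mod hpM A D hM hA 𝒩 hP hcompat s₀) hf1 hf2 E hE
    (locEqs_mod hpM A D hM hA 𝒩 hP hcompat s₀ _ le_rfl hf E hE)

/-! ### the final statements (rigid level: `4 ∣ M` or `9 ∣ M`) -/

/-- **(FD-A)** at the level `M * p` -/
theorem fdA_mod (h49 : 4 ∣ M ∨ 9 ∣ M) (hA : A.LiesOverPrime p)
    (H' : Subgroup GQ) (hH' : H' ≤ A.inertiaSubgroupIn ℚ) {τ : GQ}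
    (hτ : τ ∈ A.inertiaSubgroupIn ℚ)
    (hcos : ∀ g ∈ A.inertiaSubgroupIn ℚ, ∃ i < p, ∃ h ∈ H', g = τ ^ i * h)
    {z0 : Kb} (hz : IsZ0 A p H' τ z0) {f : FN (M * p)}
    (hf : ∀ σ ∈ H', gal (M * p) σ • f = f) (hf0 : f ≠ 0) (E : Divisor Kb (FN (M * p)))
    (hE : ∀ P : Place Kb (FN (M * p)), P.ord f = p * E P) :
    ∃ (n m : ℤ) (b₁ b₂ : ResidueField A),
      (TT hpM A).R₁.O.valuation (f * (algebraMap Kb (FN (M * p)) z0 ^ n)⁻¹) = 1 ∧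
      (TT hpM A).R₂.O.valuation (f * (algebraMap Kb (FN (M * p)) z0 ^ n)⁻¹ *
        (algebraMap Kb (FN (M * p)) z0 ^ ((p : ℤ) * m))⁻¹) = 1 ∧
      omM τ z0 (f * (algebraMap Kb (FN (M * p)) z0 ^ n)⁻¹) ∈ (TT hpM A).R₁.O ∧
      omM τ z0 (f * (algebraMap Kb (FN (M * p)) z0 ^ n)⁻¹) ∈ (TT hpM A).R₂.O ∧
      rd₁ (TT hpM A) (omM τ z0 (f * (algebraMap Kb (FN (M * p)) z0 ^ n)⁻¹)) =
        algebraMap (ResidueField A) (Fb (ResidueField A) M) b₁ ∧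
      rd₂ (TT hpM A) (omM τ z0 (f * (algebraMap Kb (FN (M * p)) z0 ^ n)⁻¹)) =
        algebraMap (ResidueField A) (Fb (ResidueField A) M) b₂ := by
  obtain ⟨-, 𝒩, -, -, hP, -, -, -, -, -, hcompat, -⟩ := exists_nodalData_fixed hpM A h49 hA
  rcases h49 with h | h
  · exact fdA_mod_aux hpM A S36.wt1Four h hA 𝒩 hP hcompat H' hH' hτ hcos hz hf hf0 E hE
  · exact fdA_mod_aux hpM A S36.wt1Nine h hA 𝒩 hP hcompat H' hH' hτ hcos hz hf hf0 E hE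

/-- **(FD-B)** at the level `M * p` -/
theorem fdB_mod (h49 : 4 ∣ M ∨ 9 ∣ M) (hA : A.LiesOverPrime p)
    (H' : Subgroup GQ) (hH' : H' ≤ A.inertiaSubgroupIn ℚ) {τ : GQ}
    (hτ : τ ∈ A.inertiaSubgroupIn ℚ)
    (hcos : ∀ g ∈ A.inertiaSubgroupIn ℚ, ∃ i < p, ∃ h ∈ H', g = τ ^ i * h)
    {z0 : Kb} (hz : IsZ0 A p H' τ z0) {f : FN (M * p)}
    (hf : ∀ σ ∈ H', gal (M * p) σ • f = f)
    (hf1 : (TT hpM A).R₁.O.valuation f = 1) (hf2 : (TT hpM A).R₂.O.valuation f = 1)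
    (E : Divisor Kb (FN (M * p))) (hE : ∀ P : Place Kb (FN (M * p)), P.ord f = p * E P)
    {b : ResidueField A}
    (hb₁ : rd₁ (TT hpM A) (omM τ z0 f) = algebraMap (ResidueField A) (Fb (ResidueField A) M) b)
    (hb₂ : rd₂ (TT hpM A) (omM τ z0 f) = algebraMap (ResidueField A) (Fb (ResidueField A) M) b) :
    (∀ Q : Place (ResidueField A) (Fb (ResidueField A) M), (p : ℤ) ∣ Q.ord (rd₁ (TT hpM A) f)) ∧
    ∀ Q : Place (ResidueField A) (Fb (ResidueField A) M), (p : ℤ) ∣ Q.ord (rd₂ (TT hpM A) f) := by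
  obtain ⟨-, 𝒩, -, -, hP, -, -, -, -, -, hcompat, -⟩ := exists_nodalData_fixed hpM A h49 hA
  rcases h49 with h | h
  · exact fdB_mod_aux hpM A S36.wt1Four h hA 𝒩 hP hcompat H' hH' hτ hcos hz hf hf1 hf2 E hE
      hb₁ hb₂
  · exact fdB_mod_aux hpM A S36.wt1Nine h hA 𝒩 hP hcompat H' hH' hτ hcos hz hf hf1 hf2 E hE
      hb₁ hb₂

/-- **(FD0-B)** at the level `M * p` -/
theorem fd0B_mod (h49 : 4 ∣ M ∨ 9 ∣ M) (hA : A.LiesOverPrime p)
    {f : FN (M * p)} (hf : ∀ σ ∈ A.inertiaSubgroupIn ℚ, gal (M * p) σ • f = f)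
    (hf1 : (TT hpM A).R₁.O.valuation f = 1) (hf2 : (TT hpM A).R₂.O.valuation f = 1)
    (E : Divisor Kb (FN (M * p))) (hE : ∀ P : Place Kb (FN (M * p)), P.ord f = p * E P) :
    (∀ Q : Place (ResidueField A) (Fb (ResidueField A) M), (p : ℤ) ∣ Q.ord (rd₁ (TT hpM A) f)) ∧
    ∀ Q : Place (ResidueField A) (Fb (ResidueField A) M), (p : ℤ) ∣ Q.ord (rd₂ (TT hpM A) f) := by
  obtain ⟨-, 𝒩, -, -, hP, -, -, -, -, -, hcompat, -⟩ := exists_nodalData_fixed hpM A h49 hA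
  rcases h49 with h | h
  · exact fd0B_mod_aux hpM A S36.wt1Four h hA 𝒩 hP hcompat hf hf1 hf2 E hE
  · exact fd0B_mod_aux hpM A S36.wt1Nine h hA 𝒩 hP hcompat hf hf1 hf2 E hE

end Fermat.Agent.SSP
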