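import Fermat.Agent.SSP.Mod.Scale0
import Fermat.Agent.SSP.RatLatB
import Fermat.Agent.S36.F0.Basic

/-!
# SSP / Mod : `ND.Rat` for the inertia group at level `M * p`
-/

set_option autoImplicit false
set_option linter.unusedSectionVars false

noncomputable section

open AlgebraicCurve ModularCurve IsLocalRing

namespace Fermat.Agent.SSP

open Fermat.Agent.RED hiding Kb
open Fermat.Agent.S24 Fermat.Agent.SS
open Fermat.Agent.RED.Cusp (Fb jb)

variable {M p : ℕ} [NeZero M] [hp : Fact p.Prime] (hpM : ¬ p ∣ M)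
variable (A : ValuationSubring Kb) [CharP (ResidueField A) p] [IsAlgClosed (ResidueField A)]

/-- the semilinear automorphisms coming from the inertia group -/
def inertSet (N : ℕ) : Set (SemilinearAut Kb (FN N)) :=
  {g | ∃ σ ∈ A.inertiaSubgroupIn ℚ, g = gal N σ}

theorem val_p_lt_one (hA : A.LiesOverPrime p) : A.valuation (p : Kb) < 1 :=
  (ValuationSubring.mem_nonunits_iff (A := A)).1 hA

theorem rat_mod (hA : A.LiesOverPrime p) (𝒩 : NodalData (TT hpM A))
    (hcompat : ∀ σ ∈ A.inertiaSubgroupIn ℚ, IsCompat 𝒩 (gal (M * p) σ) 1) :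
    ND.Rat 𝒩 (inertSet A (M * p)) := by
  have hp0 : (p : Kb) ≠ 0 := by exact_mod_cast hp.out.ne_zero
  refine rat_of_scale (RB.isSepParam_jF (M * p)) (Cusp.isSepParam_jb M (ResidueField A) p hpM)
    (inertSet A (M * p)) ?_ (ϖ := (p : Kb)) hp0 ?_ ?_ ?_ ?_ ?_
  · rintro g ⟨σ, hσ, rfl⟩
    exact hcompat σ hσ
  · rw [twoRed_A]; exact val_p_lt_one A hA
  · rintro g ⟨σ, hσ, rfl⟩
    rw [baseAut_gal, map_natCast]
  · intro a ha
    rw [twoRed_A] at ha ⊢
    obtain ⟨b, hb, hb1, hab⟩ := S36.exists_inertia_fixed_residue hp.out hA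
      ((A.valuation_le_one_iff a).2 ha)
    refine ⟨b, (A.valuation_le_one_iff b).1 hb1, ?_, hab⟩
    rintro g ⟨σ, hσ, rfl⟩
    rw [baseAut_gal, hb σ hσ]
  · intro u hu hu0
    exact scale0_sup_mod hpM A hA (fun σ hσ => hu _ ⟨σ, hσ, rfl⟩) hu0
  · intro V hV
    have := S36.span_inter_range_embF0 A (M * p) V (fun σ hσ w hw => hV _ ⟨σ, hσ, rfl⟩ w hw)
    rw [← this]
    congr 1
    ext v
    refine and_congr (by rw [this]) ?_
    rw [S36.mem_range_embF0_iff]
    constructor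
    · intro h σ hσ
      exact h _ ⟨σ, hσ, rfl⟩
    · rintro h g ⟨σ, hσ, rfl⟩
      exact h σ hσ

end Fermat.Agent.SSP
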