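import Fermat.Agent.SSP.Mod.Basic
import Fermat.Agent.S36.Theta.Main
import Fermat.Agent.S36.Theta.Val
import Fermat.Agent.S36.Theta.Inst

/-!
# SSP / Mod : the annulus coordinate `s = G(τ) / G(p τ)` at level `M * p`

`D : S36.Wt1 M₀` a nowhere vanishing weight one form on `Γ₀(M₀)` (`S36.wt1Four`, `S36.wt1Nine`), `M₀ ∣ M`.

* `gal_smul_sF` : `Subtype.ext`, `coe_gal_smul`, `D.coeffMap_ratS`.
* `swAlg_sF` : `swAlg M p hpM` and `S36.alW (M * p) M p rfl x y h` (`x y` with `p x - M y = 1`, Bezout) are ring homomorphisms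
  `FN (M * p) → FN (M * p)` which agree on the constants (`alW_algebraMap`, `AlgHom.commutes`) and on the `jBar (M * p) D'`
  (`S36.alW_jBar`, `SS.swAlg_jBar`, `SS.swAlg_jBar_mul`; every divisor of `M * p` is `d` or `p * d`, `d ∣ M` : see `SS.exists_swAlg_jBar`), so they
  are equal (`ringHom_ext_bar`, as in the proof of `SS.swAlg_gal_smul`).  Then `D.alW_ratF` with `e₁ = 1, e₁' = p, e₂ = p, e₂' = 1`;
  `alConst p 1 = χ(p) χ(1) p = χ(p) p` (`D.chi_one`).
* `sF_mem`, `rd_sF` : `emb₁ s = D.ratS Kb 1 p = iota A (D.ratS A 1 p)` (`D.iota_ratS`), `emb₂ s = C (χ(p) p) * D.ratS Kb p 1`; `mem_RR_O`; the first reduction is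
  `D.ratS k 1 p ≠ 0` (`D.pi_ratS`, `D.ratS_ne_zero`), the second one is `0`.
* `val₁_sF` : `s ∈ T.O`, `(T.red s).1 ≠ 0` (`twoRed_O`, `twoRed_red`, `T.R₁.valuation_eq_one_iff` / `red_ne_zero_iff`).
* `val₂_sF` : `y := p / s = p * sInvF ∈ T.O` : `emb₁ y = p D.ratS Kb p 1`, `emb₂ y = p (χ(p) p) ⁻¹ D.ratS Kb 1 p = χ(p) D.ratS Kb 1 p` (`swAlg` is a ring hom,
  `s * sInvF = 1`), second reduction `≠ 0`; so `v₂ (p / s) = 1`.
* `ord_sF` : `s` and `s⁻¹ = sInvF` are integral over `Kb[j]` (`D.isIntegral_ratF`), so they have no pole outside the poles of `j` :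
  if `0 ≤ ord_v j` then `Kb[j] ⊆ O_v`, `O_v` is integrally closed (`ValuationSubring`), so `s, s⁻¹ ∈ O_v`.
  (search `isIntegral` + `ord_nonneg` in `RED/`, `S36/Abs/`, `SS/Z1/Integral.lean` : this lemma exists in several forms.)
-/

set_option autoImplicit false
set_option linter.unusedSectionVars false

noncomputable section

open AlgebraicCurve ModularCurve IsLocalRing

namespace Fermat.Agent.SSP

open Fermat.Agent.RED hiding Kb
open Fermat.Agent.S24 Fermat.Agent.SS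
open Fermat.Agent.RED.Cusp (Fb jb)

variable {M p : ℕ} [NeZero M] [hp : Fact p.Prime] (hpM : ¬ p ∣ M)
variable {M₀ : ℕ} [NeZero M₀] (D : S36.Wt1 M₀) (hM : M₀ ∣ M)

instance instNeZeroPrimeSSP : NeZero p := ⟨hp.out.ne_zero⟩

include hM in
theorem lvl_one : M₀ * 1 ∣ M * p := by rw [mul_one]; exact hM.mul_right p

include hM in
theorem lvl_p : M₀ * p ∣ M * p := mul_dvd_mul hM dvd_rfl

/-- `s = G(τ) / G(p τ)` -/
def sF : FN (M * p) := D.ratF (M * p) 1 p (lvl_one hM) (lvl_p hM)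

/-- `1 / s = G(p τ) / G(τ)` -/
def sInvF : FN (M * p) := D.ratF (M * p) p 1 (lvl_p hM) (lvl_one hM)

theorem sF_mul_sInvF : sF (p := p) D hM * sInvF D hM = 1 := D.ratF_mul_ratF _ _ _ _ _

theorem sF_ne_zero : sF (p := p) D hM ≠ 0 := left_ne_zero_of_mul_eq_one (sF_mul_sInvF D hM)

theorem inv_sF : (sF (p := p) D hM)⁻¹ = sInvF D hM :=
  inv_eq_of_mul_eq_one_right (sF_mul_sInvF D hM)

theorem gal_smul_sF (σ : GQ) : gal (M * p) σ • sF (p := p) D hM = sF D hM :=
  Subtype.ext (D.coeffMap_ratS (σ : Kb →+* Kb) 1 p)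

/-- **Atkin-Lehner** -/
theorem swAlg_sF : swAlg M p hpM (sF D hM) =
    algebraMap Kb (FN (M * p)) (((D.χ (p : ℤ) : ℤ) : Kb) * (p : Kb)) * sInvF D hM := by
  obtain ⟨x, y, h⟩ : ∃ x y : ℤ, (p : ℤ) * x - M * y = 1 := by
    have hcop : IsCoprime (p : ℤ) (M : ℤ) :=
      Nat.isCoprime_iff_coprime.mpr ((Nat.Prime.coprime_iff_not_dvd hp.out).mpr hpM)
    obtain ⟨a, b, hab⟩ := hcop
    exact ⟨a, -b, by linear_combination hab⟩
  have key : (swAlg M p hpM).toRingHom = S36.alW (M * p) M p rfl x y h := by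
    apply ringHom_ext_bar
    · intro a
      rw [S36.alW_algebraMap]
      exact (swAlg M p hpM).commutes a
    · intro D' _ hD'
      by_cases hpD : p ∣ D'
      · obtain ⟨d, rfl⟩ := hpD
        have hd : d ∣ M := by
          rw [mul_comm M p] at hD'
          exact Nat.dvd_of_mul_dvd_mul_left hp.out.pos hD'
        have : NeZero d := ⟨fun h0 => NeZero.ne (p * d) (by rw [h0, mul_zero])⟩
        have e1 := swAlg_jBar_mul M p hpM d hd
        have e2 := S36.alW_jBar' (M * p) M p rfl x y h d p 1 (p * d) d hd (mul_one p) rfl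
          (one_mul d).symm hD' (hd.trans (dvd_mul_right M p))
        exact e1.trans e2.symm
      · have hd : D' ∣ M :=
          (Nat.Coprime.dvd_of_dvd_mul_right
            ((Nat.Prime.coprime_iff_not_dvd hp.out).mpr hpD).symm hD')
        have e1 := swAlg_jBar M p hpM D' hd
        have e2 := S36.alW_jBar' (M * p) M p rfl x y h D' 1 p D' (p * D') hd (one_mul p)
          (one_mul D').symm rfl hD' (ES.mul_dvd_of_dvd M p hd)
        exact e1.trans e2.symm
  have h1 := D.alW_ratF (M * p) M p rfl x y h hM 1 p p 1 (one_mul p) (mul_one p)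
  have h2 : swAlg M p hpM (sF D hM) = S36.alW (M * p) M p rfl x y h (sF D hM) :=
    congrArg (fun φ : FN (M * p) →+* FN (M * p) => φ (sF D hM)) key
  rw [h2, sF, h1, sInvF]
  congr 2
  rw [S36.Wt1.alConst, Nat.cast_one, D.chi_one]
  simp

end Fermat.Agent.SSP
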