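import Fermat.Agent.SSP.Mod.Basic

/-!
# SSP / Mod : `scale0_sup_mod`; proof in the header of `SSP/Mod/Basic.lean`
-/

set_option autoImplicit false
set_option linter.unusedSectionVars false

noncomputable section

open AlgebraicCurve ModularCurve IsLocalRing

namespace Fermat.Agent.SSP

open Fermat.Agent.RED hiding Kb
open Fermat.Agent.S24 Fermat.Agent.SS
open Fermat.Agent.RED.Cusp (Fb jb)

variable {M p : ℕ} [NeZero M] [hp : Fact p.Prime] (hpM : ¬ p ∣ M)
variable (A : ValuationSubring Kb) [CharP (ResidueField A) p] [IsAlgClosed (ResidueField A)]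

/-- the sup-norm of an inertia-fixed function is a power of `|p|` -/
theorem scale0_sup_mod (hA : A.LiesOverPrime p) {u : FN (M * p)}
    (hu : ∀ σ ∈ A.inertiaSubgroupIn ℚ, gal (M * p) σ • u = u) (hu0 : u ≠ 0) :
    ∃ (n : ℤ) (h : u * (algebraMap Kb (FN (M * p)) (p : Kb) ^ n)⁻¹ ∈ (TT hpM A).O),
      (TT hpM A).red ⟨_, h⟩ ≠ 0 := by
  obtain ⟨u₀, h⟩ := exists_isCoreExt M p hpM
  have hn : Fintype.card (Fermat.Agent.S28.Q M) = dedekindPsi M := by
    rw [← Nat.card_eq_fintype_card]; exact S20.card_quotient_Gamma0 M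
  rw [hn] at h
  have H := isON hpM (residue A) residue_surjective h rfl
  obtain ⟨c, y', hc, hcfix, hy', hrd, hy⟩ := exists_rat_scale H
    (κ := A.inertiaSubgroupIn ℚ) (fun σ => gal (M * p) σ.1)
    (fun σ => gal_smul_jF _ _) (fun σ i => gal_smul_wF h σ.1 i) (fun σ => hu σ.1 σ.2) hu0
  have hcfix' : ∀ σ ∈ A.inertiaSubgroupIn ℚ, σ c = c := fun σ hσ => by
    rw [← baseAut_gal (M * p) σ c]; exact hcfix ⟨σ, hσ⟩
  obtain ⟨n, hn⟩ := S36.exists_zpow_of_inertia_fixed hp.out hA hc hcfix'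
  have hp0 : (p : Kb) ≠ 0 := Nat.cast_ne_zero.mpr hp.out.ne_zero
  have hpn : (p : Kb) ^ n ≠ 0 := zpow_ne_zero _ hp0
  set e : Kb := c * ((p : Kb) ^ n)⁻¹ with he
  have hve : A.valuation e = 1 := by
    rw [he, map_mul, map_inv₀, map_zpow₀, hn]
    exact mul_inv_cancel₀ (zpow_ne_zero _ ((Valuation.ne_zero_iff _).mpr hp0))
  have heA : e ∈ A := (A.valuation_le_one_iff e).mp hve.le
  have hunit : IsUnit (⟨e, heA⟩ : A) := (A.valuation_eq_one_iff ⟨e, heA⟩).mpr hve
  have hres : residue A ⟨e, heA⟩ ≠ 0 := by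
    intro h0
    exact ((residue_eq_zero_iff _).mp h0) hunit
  have hrw : u * (algebraMap Kb (FN (M * p)) (p : Kb) ^ n)⁻¹ = algebraMap Kb (FN (M * p)) e * y' := by
    rw [hy, he, map_mul, map_inv₀, map_zpow₀]
    ring
  set R := RR hpM (residue A) residue_surjective with hR
  have heO : algebraMap Kb (FN (M * p)) e ∈ R.O := (R.algebraMap_mem_O_iff residue_surjective e).mpr heA
  have hmem : u * (algebraMap Kb (FN (M * p)) (p : Kb) ^ n)⁻¹ ∈ (TT hpM A).O := by
    rw [twoRed_O, hrw]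
    exact R.O.mul_mem heO hy'
  refine ⟨n, hmem, ?_⟩
  rw [twoRed_red]
  show R.rd (u * (algebraMap Kb (FN (M * p)) (p : Kb) ^ n)⁻¹) ≠ 0
  rw [hrw, R.rd_mul heO hy']
  have h1 : R.rd (algebraMap Kb (FN (M * p)) e) =
      algebraMap (ResidueField A) _ (residue A ⟨e, heA⟩) := R.rd_const ⟨e, heA⟩
  rw [h1]
  have hU : IsUnit (algebraMap (ResidueField A) (Fb (ResidueField A) M × Fb (ResidueField A) M)
      (residue A ⟨e, heA⟩)) := (IsUnit.mk0 _ hres).map _
  exact fun h0 => hrd ((hU.mul_right_eq_zero).mp h0)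

end Fermat.Agent.SSP
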