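import Fermat.Agent.SSP.Arith1
import Fermat.Agent.S40.Defs

/-!
# SSP / Mod : the front end of the wild case of (PL_p)

From the hypotheses of `S40.GeoB` and an element `σ` of the inertia group with `χ(σ) = 1`, `σ x ≠ x` : the subgroup `H' = Stab_I(x)`, the coset
decomposition `I = ⋃_{i < p} σ ^ i H'` and the constant `z0`.
-/

set_option autoImplicit false

namespace Fermat.Agent.SSP

open Fermat.Agent.GAL Fermat.Agent.GAL.PC

local notation "Qbar" => AlgebraicClosure ℚ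
local notation "GQ" => (AlgebraicClosure ℚ ≃ₐ[ℚ] AlgebraicClosure ℚ)

/-- the stabiliser of `x` in the inertia group -/
noncomputable def stabI (A : ValuationSubring Qbar) {X : Type*} [MulAction GQ X] (x : X) : Subgroup GQ :=
  A.inertiaSubgroupIn ℚ ⊓ MulAction.stabilizer GQ x

theorem mem_stabI {A : ValuationSubring Qbar} {X : Type*} [MulAction GQ X] {x : X} {g : GQ} :
    g ∈ stabI A x ↔ g ∈ A.inertiaSubgroupIn ℚ ∧ g • x = x := Iff.rfl

theorem stabI_le (A : ValuationSubring Qbar) {X : Type*} [MulAction GQ X] (x : X) :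
    stabI A x ≤ A.inertiaSubgroupIn ℚ := inf_le_left

section

variable {X : Type*} [AddCommGroup X]

theorem nsmul_eq_mod {p : ℕ} {t : X} (hpt : p • t = 0) (a : ℕ) : a • t = (a % p) • t := by
  conv_lhs => rw [← Nat.div_add_mod a p]
  rw [add_nsmul, mul_nsmul', nsmul_left_comm] 
  rw [hpt, smul_zero, zero_add]

theorem nsmul_eq_of_cast_eq {p : ℕ} {t : X} (hpt : p • t = 0) {a b : ℕ}
    (h : (a : ZMod p) = (b : ZMod p)) : a • t = b • t := by
  rw [nsmul_eq_mod hpt a, nsmul_eq_mod hpt b, (ZMod.natCast_eq_natCast_iff' a b p).1 h]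

end

variable {A : ValuationSubring Qbar} {p : ℕ} [NeZero p]
variable {X : Type*} [AddCommGroup X] [DistribMulAction GQ X]

theorem pow_smul_eq {x t : X} {σ : GQ} {k₀ : ℕ} (hσt : σ • t = t) (hσx : σ • x - x = k₀ • t)
    (i : ℕ) : (σ ^ i) • x = x + (i * k₀) • t := by
  induction i with
  | zero => simp
  | succ i ih =>
    have h1 : σ • x = x + k₀ • t := by rw [← hσx]; abel
    have h2 : σ • ((i * k₀) • t) = (i * k₀) • t := by
      rw [smul_comm, hσt]
    rw [pow_succ', mul_smul, ih, smul_add, h1, h2, add_assoc, ← add_nsmul]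
    congr 2
    ring

/-- **the front end of the wild case** -/
theorem exists_isZ0_of_littleRam (hp : p.Prime) (hp2 : p ≠ 2) (hA : A.LiesOverPrime p)
    {x t : X} (hpt : p • t = 0) (ht : S40.ActsChi p A t)
    (hxt : ∀ τ ∈ A.inertiaSubgroupIn ℚ, ∃ k : ℕ, τ • x - x = k • t)
    (hL : S40.LittleRam p A x) {σ : GQ} (hσ : σ ∈ A.inertiaSubgroupIn ℚ)
    (hσ1 : cycloChar p σ = 1) (hσx : σ • x ≠ x) :
    (∀ g ∈ A.inertiaSubgroupIn ℚ, ∃ i < p, ∃ h ∈ stabI A x, g = σ ^ i * h) ∧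
      ∃ z0 : Qbar, IsZ0 A p (stabI A x) σ z0 := by
  have : Fact p.Prime := ⟨hp⟩
  have hσt : σ • t = t := by
    have := ht σ hσ
    rw [hσ1, Units.val_one, ZMod.val_one, one_smul] at this
    exact this
  obtain ⟨k₀, hk₀⟩ := hxt σ hσ
  have hk₀t : k₀ • t ≠ 0 := by
    intro h0
    rw [h0, sub_eq_zero] at hk₀
    exact hσx hk₀
  have hk₀p : (k₀ : ZMod p) ≠ 0 := by
    intro h0
    apply hk₀t
    have := nsmul_eq_of_cast_eq hpt (a := k₀) (b := 0) (by simpa using h0)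
    simpa using this
  have hpow := pow_smul_eq hσt hk₀
  have hcos : ∀ g ∈ A.inertiaSubgroupIn ℚ, ∃ i < p, ∃ h ∈ stabI A x, g = σ ^ i * h := by
    intro g hg
    obtain ⟨k, hk⟩ := hxt g hg
    set u : ZMod p := (k : ZMod p) * (k₀ : ZMod p)⁻¹ with hu
    refine ⟨u.val, ZMod.val_lt u, (σ ^ u.val)⁻¹ * g, ⟨?_, ?_⟩, by group⟩
    · exact (A.inertiaSubgroupIn ℚ).mul_mem
        ((A.inertiaSubgroupIn ℚ).inv_mem ((A.inertiaSubgroupIn ℚ).pow_mem hσ _)) hg
    · show ((σ ^ u.val)⁻¹ * g) • x = x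
      rw [mul_smul, inv_smul_eq_iff, hpow]
      have h1 : g • x = x + k • t := by rw [← hk]; abel
      rw [h1]
      congr 1
      apply nsmul_eq_of_cast_eq hpt
      rw [Nat.cast_mul, ZMod.natCast_zmod_val, hu, mul_assoc, inv_mul_cancel₀ hk₀p, mul_one]
  have hdist : ∀ i, 0 < i → i < p → σ ^ i ∉ stabI A x := by
    intro i hi0 hip hmem
    have h1 : (σ ^ i) • x = x := hmem.2
    rw [hpow, add_eq_left] at h1
    -- `(i * k₀) • t = 0` with `p ∤ i * k₀`
    have hi : (i : ZMod p) ≠ 0 := by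
      intro h0
      rw [ZMod.natCast_eq_zero_iff] at h0
      exact absurd (Nat.le_of_dvd hi0 h0) (not_le.2 hip)
    apply hk₀t
    set v : ZMod p := (i : ZMod p)⁻¹ with hv
    have h2 : (v.val * (i * k₀)) • t = k₀ • t := by
      apply nsmul_eq_of_cast_eq hpt
      rw [Nat.cast_mul, Nat.cast_mul, ZMod.natCast_zmod_val, hv, ← mul_assoc, inv_mul_cancel₀ hi,
        one_mul]
    rw [← h2, mul_comm, mul_nsmul, h1, smul_zero]
  refine ⟨hcos, ?_⟩
  obtain ⟨b, hbA, hbfix, hbw⟩ := hL σ hσ hσ1 hσx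
  obtain ⟨ζ, hζ⟩ := HasEnoughRootsOfUnity.exists_primitiveRoot Qbar p
  exact exists_z0_aux hp hp2 hA (stabI A x) (stabI_le A x) hσ hcos hdist hbA
    (fun h hh => hbfix h hh.1 hh.2) hζ (hbw ζ hζ.pow_eq_one (hζ.ne_one hp.one_lt))

end Fermat.Agent.SSP
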